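import Mathlib
import Fermat.Agent.S18.B12.H33.B2Regular

/-!
# S18 / S37 — b2 in FULL NORMALITY form (helper298), for the request `coord/S37-b2-request.md`

Hypotheses = those of `B12.B2RegularStatement` (`R` DVR of characteristic 0 with uniformiser `w`,
`B` integrally closed domain, finite torsion-free over `R[X]`, `w` prime in `B`, `hsep`, `S`, `hNC`).

* `b2_isIntegrallyClosed` : the special fibre `B / w B` is integrally closed.
* `b2_isDedekindDomain`   : the special fibre `B / w B` is a Dedekind domain.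
* `b2NormalDom : B2NormalDomStatement` : the elementwise form requested by row S37
  (`B2NormalStatement` of `origin/helper37:coord/S37-b2-request.md`, with the extra hypothesis
  `hdom : Prime (algebraMap R[X] B (C w))`, which holds for the modular model by QEP):
  if `ε = b / g` (`g ∈ R[X] ∖ (w)`) satisfies a monic equation over `B` modulo `w`, then
  `b ≡ g b₀ mod w B` for some `b₀ ∈ B`.

Everything is deduced from the landed pieces `H33.b2CoreAbs` (heart), `H93.regSeqAbs` (A0),
`H84.a8` (A8) and `H203.polyInst` (A1).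
-/

set_option autoImplicit false

noncomputable section

namespace Fermat.Agent.S18.B12.H298

open Polynomial

universe u v

/-- The special fibre of the normal model is integrally closed (a Dedekind domain). -/
theorem b2_isIntegrallyClosed_and_dedekind
    (R : Type u) [CommRing R] [IsDomain R] [IsDiscreteValuationRing R] [CharZero R]
    (w : R) (hw : Irreducible w)
    (B : Type v) [CommRing B] [IsDomain B] [IsIntegrallyClosed B] [Algebra R[X] B]
    [Module.Finite R[X] B] [Module.IsTorsionFree R[X] B]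
    (hdom : Prime (algebraMap R[X] B (C w)))
    (hsep : ∃ x : Fin (Module.finrank R[X] B) → B,
        ¬ C w ∣ (Matrix.of fun i j => Algebra.intTrace R[X] B (x i * x j)).det)
    (S : Finset R) (hS : ∀ c ∈ S, ∀ c' ∈ S, c ≠ c' → IsUnit (c - c'))
    (hNC : ∀ π : R[X], Prime π → ¬ Associated π (C w) → (∀ c ∈ S, ¬ Associated π (X - C c)) →
        (Ideal.span {algebraMap R[X] B π}).IsRadical) :
    ∃ _ : IsDomain (B ⧸ (Ideal.span {(C w : R[X])}).map (algebraMap R[X] B)),
      IsIntegrallyClosed (B ⧸ (Ideal.span {(C w : R[X])}).map (algebraMap R[X] B)) ∧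
      IsDedekindDomain (B ⧸ (Ideal.span {(C w : R[X])}).map (algebraMap R[X] B)) := by
  have hcore := H33.b2CoreAbs.{u, v}
  have hA0 := H93.regSeqAbs.{u, v}
  have hA8 := H84.a8.{u, v}
  obtain ⟨hCw, hΛ, hΛ₀, hℚ, hc⟩ := H203.polyInst.{u} R w hw
  have hJ : (Ideal.span {(C w : R[X])}).map (algebraMap R[X] B)
      = Ideal.span {algebraMap R[X] B (C w)} := by
    rw [Ideal.map_span, Set.image_singleton]
  have hJprime : ((Ideal.span {(C w : R[X])}).map (algebraMap R[X] B)).IsPrime := by
    rw [hJ]; exact (Ideal.span_singleton_prime hdom.ne_zero).mpr hdom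
  have := hΛ
  have : IsDomain (R[X] ⧸ Ideal.span {(C w : R[X])}) := by
    rw [Ideal.Quotient.isDomain_iff_prime]
    exact (Ideal.span_singleton_prime hCw.ne_zero).mpr hCw
  have tf := H33.isTorsionFree_quotient (B := B) hA0 (C w : R[X]) hCw
  have : Module.Finite (R[X] ⧸ Ideal.span {(C w : R[X])})
      (B ⧸ (Ideal.span {(C w : R[X])}).map (algebraMap R[X] B)) :=
    Module.Finite.of_restrictScalars_finite R[X] _ _
  have : Module.Free (R[X] ⧸ Ideal.span {(C w : R[X])})
      (B ⧸ (Ideal.span {(C w : R[X])}).map (algebraMap R[X] B)) :=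
    Module.free_of_finite_type_torsion_free'
  let bb := Module.finBasis (R[X] ⧸ Ideal.span {(C w : R[X])})
      (B ⧸ (Ideal.span {(C w : R[X])}).map (algebraMap R[X] B))
  classical
  have hS1' : ∀ s ∈ S.image (fun c => (X - C c : R[X])), Prime s ∧ ¬ Associated s (C w) ∧
      (Ideal.span {(C w : R[X]), s}).IsMaximal ∧
      IsPrincipalIdealRing (R[X] ⧸ Ideal.span {s}) := by
    intro s hs
    obtain ⟨c, -, rfl⟩ := Finset.mem_image.mp hs
    obtain ⟨h1, h2, h3, h4, -⟩ := hc c
    exact ⟨h1, h2, h3, h4⟩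
  have hS2' : ∀ s ∈ S.image (fun c => (X - C c : R[X])),
      ∀ s' ∈ S.image (fun c => (X - C c : R[X])), s ≠ s' →
      s' ∉ Ideal.span {(C w : R[X]), s} := by
    intro s hs s' hs' hne hmem
    obtain ⟨c, hcS, rfl⟩ := Finset.mem_image.mp hs
    obtain ⟨c', hcS', rfl⟩ := Finset.mem_image.mp hs'
    have hcc : c ≠ c' := fun h => hne (by rw [h])
    exact (hc c).2.2.2.2 c' hmem (hS c hcS c' hcS' hcc)
  have hNC' : ∀ π : R[X], Prime π → ¬ Associated π (C w) →
      (∀ s ∈ S.image (fun c => (X - C c : R[X])), ¬ Associated π s) →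
      (Ideal.span {algebraMap R[X] B π}).IsRadical := by
    intro π hπ hπw hπS
    exact hNC π hπ hπw (fun c hcS => hπS _ (Finset.mem_image_of_mem _ hcS))
  have hcore' := hcore R[X] (C w) hCw hΛ hΛ₀ hℚ B hsep (S.image (fun c => (X - C c : R[X])))
    hS1' hS2' hNC'
  obtain ⟨h01, h02, h03, -, -⟩ := hc 0
  have hw0 : ¬ (C w : R[X]) ∣ X - C 0 := by
    intro hdvd
    obtain ⟨r, hr⟩ := hdvd
    rcases h01.irreducible.isUnit_or_isUnit hr with h | h
    · exact hCw.not_isUnit h
    · exact h02 ⟨h.unit⁻¹, by rw [hr, mul_assoc, IsUnit.mul_val_inv, mul_one]⟩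
  have ht₀ := H33.prime_mk_of_isMaximal (C w : R[X]) (X - C 0) hCw h03 hw0
  have hdisc := (hcore' _ ht₀ _ bb).1
  have hic : IsIntegrallyClosed (B ⧸ (Ideal.span {(C w : R[X])}).map (algebraMap R[X] B)) :=
    hA8 _ _ _ bb hdisc (fun t ht => (hcore' t ht _ bb).2)
  have : IsNoetherianRing B :=
    isNoetherian_of_tower R[X] (isNoetherian_of_isNoetherianRing_of_finite R[X] B)
  have : Ring.DimensionLEOne (B ⧸ (Ideal.span {(C w : R[X])}).map (algebraMap R[X] B)) :=
    Ring.DimensionLEOne.of_isIntegral (R[X] ⧸ Ideal.span {(C w : R[X])}) _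
  exact ⟨inferInstance, hic, { }⟩

/-- Abstract step: if `C / I` is an integrally closed domain, `g ∉ I`, and `b / g` satisfies a
monic equation over `C` modulo `I`, then `b ≡ g b₀ mod I`. -/
theorem exists_quot_of_monic_rel {C₀ : Type v} [CommRing C₀] (I : Ideal C₀)
    [hdomI : IsDomain (C₀ ⧸ I)] [hicI : IsIntegrallyClosed (C₀ ⧸ I)]
    (b g : C₀) (hg : g ∉ I) (d : ℕ) (a : Fin d → C₀)
    (hrel : b ^ d + ∑ i : Fin d, a i * b ^ (i : ℕ) * g ^ (d - (i : ℕ)) ∈ I) :
    ∃ b₀ : C₀, b - g * b₀ ∈ I := by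
  classical
  set D := C₀ ⧸ I with hD
  set K := FractionRing D with hK
  set bb : D := Ideal.Quotient.mk I b with hbb
  set gg : D := Ideal.Quotient.mk I g with hgg
  have hgg0 : gg ≠ 0 := fun h => hg (Ideal.Quotient.eq_zero_iff_mem.mp h)
  have hggK : algebraMap D K gg ≠ 0 := by
    simpa using (IsFractionRing.injective D K).ne hgg0
  set ε : K := algebraMap D K bb / algebraMap D K gg with hε
  have hεg : ε * algebraMap D K gg = algebraMap D K bb := by
    rw [hε, div_mul_cancel₀ _ hggK]
  -- the monic polynomial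
  let q : D[X] := ∑ i : Fin d, Polynomial.C (Ideal.Quotient.mk I (a i)) * X ^ (i : ℕ)
  have hqdeg : q.degree < (d : WithBot ℕ) := by
    refine lt_of_le_of_lt (degree_sum_le _ _) ?_
    refine (Finset.sup_lt_iff (WithBot.bot_lt_coe d)).mpr ?_
    intro i _
    refine lt_of_le_of_lt (degree_C_mul_X_pow_le (i : ℕ) _) ?_
    exact WithBot.coe_lt_coe.mpr i.2
  have hmonic : (X ^ d + q).Monic := monic_X_pow_add hqdeg
  have hrel' : bb ^ d + ∑ i : Fin d, Ideal.Quotient.mk I (a i) * bb ^ (i : ℕ) * gg ^ (d - (i : ℕ))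
      = 0 := by
    have := Ideal.Quotient.eq_zero_iff_mem.mpr hrel
    simpa [map_add, map_sum, map_mul, map_pow] using this
  have hq : aeval ε (X ^ d + q) =
      ε ^ d + ∑ i : Fin d, algebraMap D K (Ideal.Quotient.mk I (a i)) * ε ^ (i : ℕ) := by
    simp only [q, map_add, map_pow, aeval_X, map_sum, map_mul, aeval_C]
  have heval : aeval ε (X ^ d + q) = 0 := by
    have hgd : (algebraMap D K gg) ^ d ≠ 0 := pow_ne_zero d hggK
    apply mul_left_cancel₀ hgd
    rw [mul_zero, hq, mul_add, Finset.mul_sum]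
    have h1 := congrArg (algebraMap D K) hrel'
    rw [map_zero, map_add, map_pow, map_sum] at h1
    have e1 : (algebraMap D K gg) ^ d * ε ^ d = (algebraMap D K bb) ^ d := by
      rw [← mul_pow, mul_comm, hεg]
    have e2 : ∀ i : Fin d, (algebraMap D K gg) ^ d *
        (algebraMap D K (Ideal.Quotient.mk I (a i)) * ε ^ (i : ℕ)) =
        algebraMap D K (Ideal.Quotient.mk I (a i) * bb ^ (i : ℕ) * gg ^ (d - (i : ℕ))) := by
      intro i
      have hi : (i : ℕ) ≤ d := i.2.le
      have hsplit : (algebraMap D K gg) ^ d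
          = (algebraMap D K gg) ^ (d - (i : ℕ)) * (algebraMap D K gg) ^ (i : ℕ) := by
        rw [← pow_add, Nat.sub_add_cancel hi]
      rw [hsplit, map_mul, map_mul, map_pow, map_pow, ← hεg, mul_pow]
      ring
    rw [e1, Finset.sum_congr rfl (fun i _ => e2 i)]
    exact h1
  have hint : IsIntegral D ε := ⟨X ^ d + q, hmonic, by simpa [aeval_def] using heval⟩
  obtain ⟨c, hc⟩ := IsIntegrallyClosed.isIntegral_iff.mp hint
  obtain ⟨c₀, rfl⟩ := Ideal.Quotient.mk_surjective c
  refine ⟨c₀, ?_⟩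
  rw [← Ideal.Quotient.eq_zero_iff_mem, map_sub, map_mul, sub_eq_zero]
  apply IsFractionRing.injective D K
  rw [map_mul, hc, mul_comm]
  exact hεg.symm

/-- The elementwise statement requested by row S37 (`B2NormalStatement` of
`coord/S37-b2-request.md`) with the additional hypothesis that `w` is prime in `B`. -/
def B2NormalDomStatement : Prop :=
  ∀ (R : Type u) [CommRing R] [IsDomain R] [IsDiscreteValuationRing R] [CharZero R]
    (w : R) (_ : Irreducible w)
    (B : Type v) [CommRing B] [IsDomain B] [IsIntegrallyClosed B] [Algebra R[X] B]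
    [Module.Finite R[X] B] [Module.IsTorsionFree R[X] B]
    (_ : Prime (algebraMap R[X] B (C w)))
    (_ : ∃ x : Fin (Module.finrank R[X] B) → B,
        ¬ C w ∣ (Matrix.of fun i j => Algebra.intTrace R[X] B (x i * x j)).det)
    (S : Finset R) (_ : ∀ c ∈ S, ∀ c' ∈ S, c ≠ c' → IsUnit (c - c'))
    (_ : ∀ π : R[X], Prime π → ¬ Associated π (C w) → (∀ c ∈ S, ¬ Associated π (X - C c)) →
        (Ideal.span {algebraMap R[X] B π}).IsRadical)
    (b : B) (g : R[X]), ¬ C w ∣ g →
    (∃ (d : ℕ) (a : Fin d → B),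
        b ^ d + ∑ i : Fin d, a i * b ^ (i : ℕ) * algebraMap R[X] B g ^ (d - (i : ℕ)) ∈
          Ideal.span {algebraMap R[X] B (C w)}) →
      ∃ b₀ : B, b - algebraMap R[X] B g * b₀ ∈ Ideal.span {algebraMap R[X] B (C w)}

/-- **b2, full normality form** (domain case). -/
theorem b2NormalDom : B2NormalDomStatement.{u, v} := by
  intro R _ _ _ _ w hw B _ _ _ _ _ _ hdom hsep S hS hNC b g hg hrel
  obtain ⟨d, a, hrel⟩ := hrel
  obtain ⟨hdomI, hic, -⟩ :=
    b2_isIntegrallyClosed_and_dedekind R w hw B hdom hsep S hS hNC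
  have hJ : (Ideal.span {(C w : R[X])}).map (algebraMap R[X] B)
      = Ideal.span {algebraMap R[X] B (C w)} := by
    rw [Ideal.map_span, Set.image_singleton]
  rw [← hJ] at hrel ⊢
  have hCw : Prime (C w : R[X]) := (H203.polyInst.{u} R w hw).1
  -- `g ∉ w B`
  have hgB : algebraMap R[X] B g ∉ (Ideal.span {(C w : R[X])}).map (algebraMap R[X] B) := by
    intro hmem
    rw [hJ, Ideal.mem_span_singleton] at hmem
    obtain ⟨c, hc⟩ := hmem
    have h1 : algebraMap R[X] B g * 1 = algebraMap R[X] B (C w) * c := by rw [mul_one, hc]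
    obtain ⟨b'', hb'', -⟩ := H93.regSeqAbs.{u, v} R[X] B g (C w) hCw hg 1 c h1
    exact hdom.not_isUnit (IsUnit.of_mul_eq_one _ hb''.symm)
  exact exists_quot_of_monic_rel _ b (algebraMap R[X] B g) hgB d a hrel

end Fermat.Agent.S18.B12.H298
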